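/-
S36 / [BR36](a) (helper16): **weakly holomorphic modular functions are integral over `K[j]`.**

* `isIntegralElem_WH`, `isIntegralElem_fieldEquiv` : every `F ∈ WH (Γ₀(N))` is integral over `ℂ[j]`
  (coset polynomial of `M2/CosetPoly`);
* `isIntegralElem_of_toFCK_eq`, `isIntegral_of_toFCK_eq` : descent to `K[j]` for `x ∈ FF K N` whose
  image in `F_ℂ` is (the `q`-expansion of) a weakly holomorphic function — by a `K`-linear retraction
  `ℂ → K` applied coefficientwise;
* `mem_valuationSubring_of_toFCK_eq` : the place form (`hhor` of `S36/RegularCrossing`);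
* `exists_pow_smul_mem_Rfin`, `mem_Rfin_of_isSemiGaussRing` : membership in the finite chart.
-/
import Mathlib
import Fermat.Agent.M2.CosetPoly
import Fermat.Agent.S24.FieldIsoFinal
import Fermat.Agent.S36.V.FrickeK
import Fermat.Agent.N4.Setting
import Fermat.Agent.P3G.Cover.Lift

set_option autoImplicit false
set_option linter.unusedSectionVars false

namespace Fermat.Agent.S36.Bridge.HolIntegral

open UpperHalfPlane ModularForm MatrixGroups CongruenceSubgroup Polynomial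
open Fermat.Agent.M2 Fermat.Agent.S24.FieldIso ModularCurve
open scoped Manifold Topology

local notation "Δ" => ModularForm.discriminant

/-! ### (H1) integrality over `ℂ[j]` -/

section H1

variable (Γ : Subgroup SL(2, ℤ)) [Γ.FiniteIndex]

/-- evaluation at a point, as a ring hom on `WH Γ` -/
noncomputable def evalAt (z : ℍ) : WH Γ →+* ℂ :=
  (Pi.evalRingHom (fun _ : ℍ => ℂ) z).comp (WH Γ).val.toRingHom

theorem evalAt_apply (z : ℍ) (F : WH Γ) : evalAt Γ z F = (F : ℍ → ℂ) z := rfl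

theorem evalAt_comp_aeval (z : ℍ) :
    (evalAt Γ z).comp (aeval (jWH Γ) : ℂ[X] →ₐ[ℂ] WH Γ).toRingHom = evalRingHom (jInv z) := by
  refine Polynomial.ringHom_ext (fun c => ?_) ?_
  · simp only [RingHom.comp_apply, AlgHom.toRingHom_eq_coe, RingHom.coe_coe, aeval_C,
      coe_evalRingHom, eval_C]
    rfl
  · simp only [RingHom.comp_apply, AlgHom.toRingHom_eq_coe, RingHom.coe_coe, aeval_X,
      coe_evalRingHom, eval_X]
    rfl

/-- **Every weakly holomorphic modular function is integral over `ℂ[j]`** (in `WH Γ`). -/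
theorem isIntegralElem_WH (F : WH Γ) :
    (aeval (jWH Γ) : ℂ[X] →ₐ[ℂ] WH Γ).toRingHom.IsIntegralElem F := by
  obtain ⟨hol, hinv, hmero⟩ := F.2
  have hinv' : ∀ g ∈ Γ, (F : ℍ → ℂ) ∣[(0 : ℤ)] g = (F : ℍ → ℂ) := by
    intro g hg
    funext z
    rw [CosetPoly.slash_zero_apply, hinv g hg z]
  have hmero' : ∀ γ : SL(2, ℤ), CosetPoly.MeroAtInfty ((F : ℍ → ℂ) ∣[(0 : ℤ)] γ) := by
    intro γ
    obtain ⟨m, hm⟩ := hmero γ
    refine ⟨m, ?_⟩
    have e : (fun z : ℍ => ((F : ℍ → ℂ) ∣[(0 : ℤ)] γ) z * Δ z ^ m) =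
        fun z : ℍ => (F : ℍ → ℂ) (γ • z) * Δ z ^ m := by
      funext z
      rw [CosetPoly.slash_zero_apply]
    rw [e]
    exact hm
  obtain ⟨Q, hQm, -, hQ⟩ := CosetPoly.exists_monic_poly_root (Γ := Γ) (F : ℍ → ℂ) hinv' hol hmero'
  refine ⟨Q, hQm, ?_⟩
  apply Subtype.ext
  funext z
  have h1 : evalAt Γ z (eval₂ (aeval (jWH Γ) : ℂ[X] →ₐ[ℂ] WH Γ).toRingHom F Q) =
      eval₂ (evalRingHom (jInv z)) ((F : ℍ → ℂ) z) Q := by
    rw [Polynomial.hom_eval₂, evalAt_comp_aeval, evalAt_apply]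
  have h2 := hQ z
  rw [Polynomial.eval_map] at h2
  change evalAt Γ z (eval₂ (aeval (jWH Γ) : ℂ[X] →ₐ[ℂ] WH Γ).toRingHom F Q) = 0
  rw [h1]
  exact h2

end H1

/-- **Every weakly holomorphic modular function of level `Γ₀(N)` is integral over `ℂ[j]`**
(in `F_ℂ`). -/
theorem isIntegralElem_fieldEquiv (N : ℕ) [NeZero N] (F : WH (Gamma0 N)) :
    (aeval (xC N) : ℂ[X] →ₐ[ℂ] ↥(FC N)).toRingHom.IsIntegralElem
      (fieldEquiv N (algebraMap (WH (Gamma0 N)) (WHField (Gamma0 N)) F)) := by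
  have h := (isIntegralElem_WH (Gamma0 N) F).map
    ((fieldEquiv N : WHField (Gamma0 N) →+* ↥(FC N)).comp
      (algebraMap (WH (Gamma0 N)) (WHField (Gamma0 N))))
  have e : ((fieldEquiv N : WHField (Gamma0 N) →+* ↥(FC N)).comp
      (algebraMap (WH (Gamma0 N)) (WHField (Gamma0 N)))).comp
        (aeval (jWH (Gamma0 N)) : ℂ[X] →ₐ[ℂ] WH (Gamma0 N)).toRingHom =
      (aeval (xC N) : ℂ[X] →ₐ[ℂ] ↥(FC N)).toRingHom := by
    refine Polynomial.ringHom_ext (fun c => ?_) ?_
    · simp only [RingHom.comp_apply, AlgHom.toRingHom_eq_coe, RingHom.coe_coe, aeval_C]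
      rw [← IsScalarTower.algebraMap_apply ℂ (WH (Gamma0 N)) (WHField (Gamma0 N))]
      exact (fieldEquiv N).commutes c
    · simp only [RingHom.comp_apply, AlgHom.toRingHom_eq_coe, RingHom.coe_coe, aeval_X]
      exact fieldEquiv_jM' N
  rw [e] at h
  exact h

/-! ### (H2) descent of integrality from `ℂ[j]` to `K[j]` -/

section Descent

variable {K : Type} [Field K] (ι : K →+* ℂ)

/-- a `K`-linear retraction of `ι : K → ℂ` -/
theorem exists_retraction :
    ∃ ρ : ℂ →+ K, (∀ (k : K) (c : ℂ), ρ (ι k * c) = k * ρ c) ∧ ρ 1 = 1 := by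
  let _ : Algebra K ℂ := ι.toAlgebra
  have hinj : LinearMap.ker (Algebra.linearMap K ℂ) = ⊥ := by
    rw [LinearMap.ker_eq_bot]
    exact (algebraMap K ℂ).injective
  obtain ⟨g, hg⟩ := LinearMap.exists_leftInverse_of_injective (Algebra.linearMap K ℂ) hinj
  refine ⟨g.toAddMonoidHom, fun k c => ?_, ?_⟩
  · have : ι k * c = k • c := by
      rw [Algebra.smul_def]
      rfl
    change g (ι k * c) = k * g c
    rw [this, map_smul, smul_eq_mul]
  · have := LinearMap.congr_fun hg (1 : K)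
    simpa using this

variable {ι} (ρ : ℂ →+ K)

/-- the coefficientwise retraction on Laurent series -/
noncomputable def rhoHat : LaurentSeries ℂ →+ LaurentSeries K where
  toFun y := y.map ρ
  map_zero' := by ext k; simp
  map_add' y₁ y₂ := by ext k; simp

@[simp] theorem rhoHat_coeff (y : LaurentSeries ℂ) (k : ℤ) :
    (rhoHat ρ y).coeff k = ρ (y.coeff k) := rfl

theorem rhoHat_algebraMap_mul (hρ : ∀ (k : K) (c : ℂ), ρ (ι k * c) = k * ρ c) (c : ℂ)
    (y : LaurentSeries K) :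
    rhoHat ρ (algebraMap ℂ (LaurentSeries ℂ) c * coeffMap ι y) =
      algebraMap K (LaurentSeries K) (ρ c) * y := by
  ext k
  rw [rhoHat_coeff, algebraMap_laurentSeries_eq_single, algebraMap_laurentSeries_eq_single,
    HahnSeries.coeff_single_zero_mul, HahnSeries.coeff_single_zero_mul, coeffMap_coeff,
    mul_comm c, hρ, mul_comm]

/-- coefficientwise retraction on polynomials -/
noncomputable def rhoPoly (p : ℂ[X]) : K[X] :=
  ∑ a ∈ Finset.range (p.natDegree + 1), monomial a (ρ (p.coeff a))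

theorem rhoPoly_one (hρ1 : ρ 1 = 1) : rhoPoly ρ (1 : ℂ[X]) = 1 := by
  rw [rhoPoly, natDegree_one, zero_add, Finset.sum_range_one, coeff_one_zero, hρ1]
  rfl

theorem rhoHat_aeval_mul (hρ : ∀ (k : K) (c : ℂ), ρ (ι k * c) = k * ρ c) (j y : LaurentSeries K)
    (p : ℂ[X]) :
    rhoHat ρ (aeval (coeffMap ι j) p * coeffMap ι y) = aeval j (rhoPoly ρ p) * y := by
  rw [aeval_eq_sum_range, Finset.sum_mul, map_sum, rhoPoly, map_sum, Finset.sum_mul]
  refine Finset.sum_congr rfl fun a _ => ?_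
  rw [Algebra.smul_def, mul_assoc, ← map_pow, ← map_mul, rhoHat_algebraMap_mul ρ hρ,
    aeval_monomial, mul_assoc]

variable (ι)

/-- **Descent of integrality**, Laurent-series form: if `x̃` is integral over `ℂ[j̃]` then `x` is
integral over `K[j]`. -/
theorem descent_laurent (j x : LaurentSeries K) (Q : ℂ[X][X]) (hQ : Q.Monic)
    (h : eval₂ (aeval (coeffMap ι j) : ℂ[X] →ₐ[ℂ] LaurentSeries ℂ).toRingHom (coeffMap ι x) Q = 0) :
    ∃ Q' : K[X][X], Q'.Monic ∧
      eval₂ (aeval j : K[X] →ₐ[K] LaurentSeries K).toRingHom x Q' = 0 := by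
  obtain ⟨ρ, hρ, hρ1⟩ := exists_retraction ι
  set n := Q.natDegree with hn
  refine ⟨∑ i ∈ Finset.range (n + 1), C (rhoPoly ρ (Q.coeff i)) * X ^ i, ?_, ?_⟩
  · apply monic_of_natDegree_le_of_coeff_eq_one n
    · refine natDegree_sum_le_of_forall_le _ _ fun i hi => ?_
      refine (natDegree_C_mul_X_pow_le _ _).trans ?_
      have := Finset.mem_range.mp hi
      omega
    · rw [finsetSum_coeff]
      simp only [coeff_C_mul_X_pow]
      rw [Finset.sum_ite_eq, if_pos (Finset.mem_range.mpr (Nat.lt_succ_self n))]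
      have : Q.coeff n = 1 := hQ
      rw [this, rhoPoly_one ρ hρ1]
  · rw [eval₂_finsetSum]
    simp only [eval₂_mul, eval₂_C, eval₂_X_pow]
    have h2 := congrArg (rhoHat ρ) h
    rw [eval₂_eq_sum_range, map_sum, map_zero] at h2
    rw [← h2]
    refine Finset.sum_congr rfl fun i _ => ?_
    simp only [AlgHom.toRingHom_eq_coe, RingHom.coe_coe]
    rw [← map_pow, rhoHat_aeval_mul ρ hρ]

end Descent

/-! ### General algebra: from `IsIntegralElem` to integrality over a subring, clearing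
denominators, saturation -/

section General

/-- A monic polynomial relation whose coefficients map into (the image of) `B` gives integrality
over `B`. -/
theorem isIntegral_of_eval₂ {A P B : Type*} [CommRing A] [CommRing P] [CommRing B]
    [Algebra B A] (f : P →+* A) {x : A} (Q : P[X]) (hQm : Q.Monic)
    (hf : ∀ i, f (Q.coeff i) ∈ Set.range (algebraMap B A)) (hQ : eval₂ f x Q = 0) :
    IsIntegral B x := by
  have hl : Q.map f ∈ lifts (algebraMap B A) := by
    rw [lifts_iff_coeff_lifts]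
    intro n
    rw [coeff_map]
    exact hf _
  obtain ⟨q, hq, -, hqm⟩ := lifts_and_natDegree_eq_and_monic hl (hQm.map f)
  refine ⟨q, hqm, ?_⟩
  rw [← eval_map, hq, eval_map]
  exact hQ

/-- `IsIntegralElem` for a ring hom with values in (the image of) `B` gives integrality over `B`. -/
theorem isIntegral_of_isIntegralElem {A P B : Type*} [CommRing A] [CommRing P] [CommRing B]
    [Algebra B A] (f : P →+* A) (hf : ∀ p, f p ∈ Set.range (algebraMap B A)) {x : A}
    (hx : f.IsIntegralElem x) : IsIntegral B x := by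
  obtain ⟨Q, hQm, hQ⟩ := hx
  exact isIntegral_of_eval₂ f Q hQm (fun _ => hf _) hQ

/-- finitely many existence statements, monotone in `n`, hold for a common `n` -/
theorem exists_uniform {α : Type*} (T : Finset α) (P : ℕ → α → Prop)
    (hmono : ∀ a m n, m ≤ n → P m a → P n a) (hex : ∀ a ∈ T, ∃ n, P n a) :
    ∃ n, ∀ a ∈ T, P n a := by
  classical
  induction T using Finset.induction_on with
  | empty => exact ⟨0, fun a ha => absurd ha (Finset.notMem_empty a)⟩
  | insert b T hb ih =>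
    obtain ⟨n₁, h₁⟩ := ih fun a ha => hex a (Finset.mem_insert_of_mem ha)
    obtain ⟨n₂, h₂⟩ := hex b (Finset.mem_insert_self b T)
    refine ⟨max n₁ n₂, fun a ha => ?_⟩
    rcases Finset.mem_insert.mp ha with rfl | ha
    · exact hmono _ _ _ (le_max_right _ _) h₂
    · exact hmono _ _ _ (le_max_left _ _) (h₁ a ha)

variable {O K₀ F₀ : Type*} [CommRing O] [Field K₀] [Algebra O K₀] [Field F₀] [Algebra K₀ F₀]
  [Algebra O F₀] [IsScalarTower O K₀ F₀]

open Fermat.Agent.N4.Chart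

/-- **Clearing denominators**: if `x` is integral over `K₀[s]` and `K₀ = O[1/ϖ]`, then some
`ϖ ^ n x` is integral over `O[s]`, i.e. lies in the chart `chartAlg O F₀ {s}`. -/
theorem exists_pow_mul_mem_chartAlg (s : F₀) (ϖ : O)
    (hϖ : ∀ c : K₀, ∃ n : ℕ, algebraMap O K₀ ϖ ^ n * c ∈ Set.range (algebraMap O K₀)) {x : F₀}
    (hx : (aeval s : K₀[X] →ₐ[K₀] F₀).toRingHom.IsIntegralElem x) :
    ∃ n : ℕ, algebraMap O F₀ (ϖ ^ n) * x ∈ chartAlg O F₀ {s} := by
  classical
  obtain ⟨Q, hQm, hQ⟩ := hx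
  set d := Q.natDegree with hd
  set π : K₀ := algebraMap O K₀ ϖ with hπ
  -- the finitely many coefficients
  set T : Finset K₀ := (Finset.range (d + 1)).biUnion fun i => (Q.coeff i).coeffs with hT
  obtain ⟨n, hn⟩ := exists_uniform T (fun n c => π ^ n * c ∈ Set.range (algebraMap O K₀))
    (fun c m n hmn ⟨a, ha⟩ => ⟨ϖ ^ (n - m) * a, by
      rw [map_mul, map_pow, ha, ← mul_assoc, ← pow_add, Nat.sub_add_cancel hmn]⟩)
    (fun c _ => hϖ c)
  refine ⟨n, ?_⟩
  set σ : K₀[X] := C (π ^ n) with hσ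
  have hσl : σ ∈ lifts (algebraMap O K₀) := by
    rw [lifts_iff_coeff_lifts]
    intro a
    rw [hσ, coeff_C]
    split_ifs
    · exact ⟨ϖ ^ n, by rw [map_pow]⟩
    · exact ⟨0, map_zero _⟩
  -- `σ * Q.coeff i` has coefficients in `O`
  have hmul : ∀ i, i < d → σ * Q.coeff i ∈ lifts (algebraMap O K₀) := by
    intro i hi
    rw [lifts_iff_coeff_lifts]
    intro a
    rw [hσ, coeff_C_mul]
    by_cases h0 : (Q.coeff i).coeff a = 0
    · rw [h0, mul_zero]
      exact ⟨0, map_zero _⟩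
    · apply hn
      rw [hT, Finset.mem_biUnion]
      exact ⟨i, Finset.mem_range.mpr (by omega), coeff_mem_coeffs h0⟩
  -- all coefficients of the scaled polynomial lift
  have hcoef : ∀ i, (scaleRoots Q σ).coeff i ∈ lifts (algebraMap O K₀) := by
    intro i
    rw [coeff_scaleRoots]
    rcases lt_trichotomy i d with hi | hi | hi
    · have e : d - i = (d - i - 1) + 1 := by omega
      rw [← hd, e, pow_succ, ← mul_assoc, mul_comm (Q.coeff i * σ ^ (d - i - 1)) σ, ← mul_assoc]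
      exact mul_mem (hmul i hi) (pow_mem hσl _)
    · rw [hi, ← hd, Nat.sub_self, pow_zero, mul_one]
      have : Q.coeff d = 1 := hQm
      rw [this]
      exact one_mem _
    · rw [coeff_eq_zero_of_natDegree_lt hi, zero_mul]
      exact zero_mem _
  -- integrality
  have hroot := scaleRoots_eval₂_eq_zero (aeval s : K₀[X] →ₐ[K₀] F₀).toRingHom (s := σ) hQ
  have hσv : (aeval s : K₀[X] →ₐ[K₀] F₀).toRingHom σ = algebraMap O F₀ (ϖ ^ n) := by
    rw [hσ, AlgHom.toRingHom_eq_coe, RingHom.coe_coe, aeval_C, hπ, ← map_pow,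
      ← IsScalarTower.algebraMap_apply]
  rw [hσv] at hroot
  rw [mem_chartAlg_iff]
  refine isIntegral_of_eval₂ (aeval s : K₀[X] →ₐ[K₀] F₀).toRingHom (scaleRoots Q σ)
    ((monic_scaleRoots_iff σ).mpr hQm) (fun i => ?_) hroot
  obtain ⟨r, hr⟩ := (mem_lifts _).mp (hcoef i)
  refine ⟨⟨aeval s r, aeval_mem_adjoin_singleton O s⟩, ?_⟩
  rw [← hr, AlgHom.toRingHom_eq_coe, RingHom.coe_coe, aeval_map_algebraMap]
  rfl

open Fermat.Agent.P3G.Cover.Lift in
/-- **Saturation**: if `ϖ ^ n x` lies in the chart and `x` lies in a semilocal Gauss ring `W` of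
the chart, then `x` lies in the chart. -/
theorem mem_chartAlg_of_isSemiGaussRing (s : F₀) (ϖ : O) (W : Subring F₀)
    (hW : IsSemiGaussRing W (algebraMap O (chartAlg O F₀ {s}) ϖ)) {x : F₀}
    (hx : ∃ n : ℕ, algebraMap O F₀ (ϖ ^ n) * x ∈ chartAlg O F₀ {s}) (hxW : x ∈ W) :
    x ∈ chartAlg O F₀ {s} := by
  obtain ⟨n, hn⟩ := hx
  induction n with
  | zero => simpa using hn
  | succ n ih =>
    apply ih
    have hϖ0 := hW.ne_zero
    have hϖF : algebraMap (chartAlg O F₀ {s}) F₀ (algebraMap O (chartAlg O F₀ {s}) ϖ) =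
        algebraMap O F₀ ϖ := rfl
    have hex : ∃ w ∈ W, algebraMap (chartAlg O F₀ {s}) F₀ ⟨_, hn⟩ =
        algebraMap (chartAlg O F₀ {s}) F₀ (algebraMap O (chartAlg O F₀ {s}) ϖ) * w := by
      refine ⟨algebraMap O F₀ (ϖ ^ n) * x, W.mul_mem ?_ hxW, ?_⟩
      · exact hW.le (algebraMap O (chartAlg O F₀ {s}) (ϖ ^ n))
      · rw [hϖF]
        change algebraMap O F₀ (ϖ ^ (n + 1)) * x = _
        rw [pow_succ, map_mul]
        ring
    obtain ⟨r', hr'⟩ := hW.sat _ hex
    have h2 : algebraMap O F₀ ϖ * (algebraMap O F₀ (ϖ ^ n) * x) =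
        algebraMap O F₀ ϖ * (r' : F₀) := by
      have := congrArg (algebraMap (chartAlg O F₀ {s}) F₀) hr'
      rw [map_mul, hϖF] at this
      have h3 : algebraMap O F₀ (ϖ ^ (n + 1)) * x = algebraMap O F₀ ϖ * (r' : F₀) := this
      rw [← h3, pow_succ, map_mul]
      ring
    rw [hϖF] at hϖ0
    rw [mul_left_cancel₀ hϖ0 h2]
    exact r'.2

/-- the denominator-clearing hypothesis for a discrete valuation ring -/
theorem exists_pow_mul_mem_range_of_dvr [IsDomain O] [IsDiscreteValuationRing O]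
    [IsFractionRing O K₀] {ϖ : O} (hϖ : Irreducible ϖ) (c : K₀) :
    ∃ n : ℕ, algebraMap O K₀ ϖ ^ n * c ∈ Set.range (algebraMap O K₀) := by
  obtain ⟨a, b, hb, rfl⟩ := IsFractionRing.div_surjective (A := O) c
  have hb0 : b ≠ 0 := nonZeroDivisors.ne_zero hb
  obtain ⟨n, hn⟩ := IsDiscreteValuationRing.associated_pow_irreducible hb0 hϖ
  obtain ⟨u, hu⟩ := hn.symm
  refine ⟨n, ⟨a * (↑u⁻¹ : O), ?_⟩⟩
  have hbK : algebraMap O K₀ b ≠ 0 := by
    rw [Ne, map_eq_zero_iff _ (IsFractionRing.injective O K₀)]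
    exact hb0
  rw [← hu] at hbK ⊢
  simp only [map_mul, map_pow] at hbK ⊢
  have hu0 : algebraMap O K₀ (u : O) ≠ 0 := right_ne_zero_of_mul hbK
  have hπ0 : algebraMap O K₀ ϖ ^ n ≠ 0 := left_ne_zero_of_mul hbK
  rw [map_units_inv]
  field_simp

end General

/-! ### The function-field statements -/

section FF

open Fermat.Agent.N4.Setting Fermat.Agent.S36.V.FrickeK

variable (K : Type) [Field K] [CharZero K] (ι : K →+* ℂ) (N : ℕ) [NeZero N]

/-- **Integrality over `K[j]`** (`IsIntegralElem` form) of an element of `FF K N` whose image in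
`F_ℂ` is a weakly holomorphic modular function. -/
theorem isIntegralElem_of_toFCK_eq (x : FF K N) (F : WH (Gamma0 N))
    (h : toFCK K ι N x = fieldEquiv N (algebraMap (WH (Gamma0 N)) (WHField (Gamma0 N)) F)) :
    (aeval (jF K N) : K[X] →ₐ[K] FF K N).toRingHom.IsIntegralElem x := by
  obtain ⟨Q, hQm, hQ⟩ := isIntegralElem_fieldEquiv N F
  rw [← h] at hQ
  -- push to Laurent series over `ℂ`
  have h1 := congrArg (algebraMap ↥(FC N) (LaurentSeries ℂ)) hQ
  rw [Polynomial.hom_eval₂, map_zero] at h1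
  have e1 : (algebraMap ↥(FC N) (LaurentSeries ℂ)).comp
      (aeval (xC N) : ℂ[X] →ₐ[ℂ] ↥(FC N)).toRingHom =
      (aeval (coeffMap ι ((jF K N : FF K N) : LaurentSeries K)) :
        ℂ[X] →ₐ[ℂ] LaurentSeries ℂ).toRingHom := by
    refine Polynomial.ringHom_ext (fun c => ?_) ?_
    · simp only [RingHom.comp_apply, AlgHom.toRingHom_eq_coe, RingHom.coe_coe, aeval_C]
      rfl
    · simp only [RingHom.comp_apply, AlgHom.toRingHom_eq_coe, RingHom.coe_coe, aeval_X]
      rw [coe_jF, coeffMap_jqModC]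
      rfl
  rw [e1] at h1
  have e2 : algebraMap ↥(FC N) (LaurentSeries ℂ) (toFCK K ι N x) =
      coeffMap ι (x : LaurentSeries K) := rfl
  rw [e2] at h1
  obtain ⟨Q', hQ'm, hQ'⟩ := descent_laurent ι _ _ Q hQm h1
  refine ⟨Q', hQ'm, ?_⟩
  apply (algebraMap (FF K N) (LaurentSeries K)).injective
  rw [Polynomial.hom_eval₂, map_zero]
  have e3 : (algebraMap (FF K N) (LaurentSeries K)).comp
      (aeval (jF K N) : K[X] →ₐ[K] FF K N).toRingHom =
      (aeval ((jF K N : FF K N) : LaurentSeries K) : K[X] →ₐ[K] LaurentSeries K).toRingHom := by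
    refine Polynomial.ringHom_ext (fun c => ?_) ?_
    · simp only [RingHom.comp_apply, AlgHom.toRingHom_eq_coe, RingHom.coe_coe, aeval_C]
      rfl
    · simp only [RingHom.comp_apply, AlgHom.toRingHom_eq_coe, RingHom.coe_coe, aeval_X]
      rfl
  rw [e3]
  exact hQ'

/-- **Integrality over `K[j]`**. -/
theorem isIntegral_of_toFCK_eq (x : FF K N) (F : WH (Gamma0 N))
    (h : toFCK K ι N x = fieldEquiv N (algebraMap (WH (Gamma0 N)) (WHField (Gamma0 N)) F)) :
    IsIntegral (Algebra.adjoin K {jF K N}) x := by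
  refine isIntegral_of_isIntegralElem (aeval (jF K N) : K[X] →ₐ[K] FF K N).toRingHom
    (fun p => ?_) (isIntegralElem_of_toFCK_eq K ι N x F h)
  exact ⟨⟨aeval (jF K N) p, aeval_mem_adjoin_singleton K (jF K N)⟩, rfl⟩

/-- **Place form**: such an `x` lies in every valuation subring of `FF K N` containing `K` and
`j` (so a unit pair `F, F⁻¹ ∈ WH` gives a unit at every such place). -/
theorem mem_valuationSubring_of_toFCK_eq (x : FF K N) (F : WH (Gamma0 N))
    (h : toFCK K ι N x = fieldEquiv N (algebraMap (WH (Gamma0 N)) (WHField (Gamma0 N)) F))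
    (v : ValuationSubring (FF K N)) (hK : ∀ c : K, algebraMap K (FF K N) c ∈ v)
    (hj : jF K N ∈ v) : x ∈ v := by
  have hint : IsIntegral v x := by
    refine isIntegral_of_isIntegralElem (aeval (jF K N) : K[X] →ₐ[K] FF K N).toRingHom
      (fun p => ?_) (isIntegralElem_of_toFCK_eq K ι N x F h)
    refine ⟨⟨aeval (jF K N) p, ?_⟩, rfl⟩
    rw [aeval_eq_sum_range]
    refine sum_mem fun a _ => ?_
    rw [Algebra.smul_def]
    exact mul_mem (hK _) (pow_mem hj a)
  obtain ⟨y, hy⟩ := IsIntegrallyClosed.isIntegral_iff.mp hint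
  rw [← hy]
  exact y.2

variable (O : Subring K)

/-- **Clearing denominators into the finite chart.** -/
theorem exists_pow_mul_mem_Rfin (ϖ : O)
    (hϖ : ∀ c : K, ∃ n : ℕ, (ϖ : K) ^ n * c ∈ O) (x : FF K N) (F : WH (Gamma0 N))
    (h : toFCK K ι N x = fieldEquiv N (algebraMap (WH (Gamma0 N)) (WHField (Gamma0 N)) F)) :
    ∃ n : ℕ, algebraMap O (FF K N) (ϖ ^ n) * x ∈ Rfin K N O := by
  refine exists_pow_mul_mem_chartAlg (O := ↥O) (K₀ := K) (jF K N) ϖ (fun c => ?_)
    (isIntegralElem_of_toFCK_eq K ι N x F h)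
  obtain ⟨n, hn⟩ := hϖ c
  exact ⟨n, ⟨⟨_, hn⟩, rfl⟩⟩

open Fermat.Agent.P3G.Cover.Lift in
/-- **`T3 ⇒ ∈ Rfin`**: a weakly holomorphic `x ∈ FF K N` lying in a semilocal Gauss ring `W` of the
finite chart lies in the finite chart. -/
theorem mem_Rfin_of_isSemiGaussRing (ϖ : O)
    (hϖ : ∀ c : K, ∃ n : ℕ, (ϖ : K) ^ n * c ∈ O) (W : Subring (FF K N))
    (hW : IsSemiGaussRing W (algebraMap O (Rfin K N O) ϖ)) (x : FF K N) (F : WH (Gamma0 N))
    (h : toFCK K ι N x = fieldEquiv N (algebraMap (WH (Gamma0 N)) (WHField (Gamma0 N)) F))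
    (hxW : x ∈ W) : x ∈ Rfin K N O :=
  mem_chartAlg_of_isSemiGaussRing (jF K N) ϖ W hW
    (exists_pow_mul_mem_Rfin K ι N O ϖ hϖ x F h) hxW

/-- the denominator-clearing hypothesis when `O` is a discrete valuation ring with fraction
field `K` and uniformiser `ϖ` -/
theorem exists_pow_mul_mem_of_dvr [IsDiscreteValuationRing ↥O] [IsFractionRing ↥O K] {ϖ : O}
    (hϖ : Irreducible ϖ) (c : K) : ∃ n : ℕ, (ϖ : K) ^ n * c ∈ O := by
  obtain ⟨n, ⟨a, ha⟩⟩ := exists_pow_mul_mem_range_of_dvr (O := ↥O) (K₀ := K) hϖ c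
  refine ⟨n, ?_⟩
  have : (ϖ : K) ^ n * c = (a : K) := ha.symm
  rw [this]
  exact a.2

/-! ### Producers of the hypothesis -/

/-- the hypothesis in `q`-expansion form -/
theorem toFCK_eq_of_coeffMap_eq (x : FF K N) (G : WH (Gamma0 N))
    (h : coeffMap ι (x : LaurentSeries K) = Fermat.Agent.S24.QExp.qexp N G) :
    toFCK K ι N x = fieldEquiv N (algebraMap (WH (Gamma0 N)) (WHField (Gamma0 N)) G) := by
  apply Subtype.ext
  rw [coe_toFCK, Fermat.Agent.S24.FieldIso.coe_fieldEquiv, qexpField_algebraMap]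
  exact h

open Fermat.Agent.S16.Bridge in
/-- If `G ∈ WH (Γ₀(N))` satisfies `G · B = A` pointwise, the element `[A / B]` of the function
field is (the image of) `G`. -/
theorem formRatio_eq_algebraMap {k : ℕ} {A B : ℍ → ℂ} (hA : IsFormLike (Gamma0 N) k A)
    (hB : IsFormLike (Gamma0 N) k B) (hB0 : B ≠ 0) (G : WH (Gamma0 N))
    (hG : ∀ z, (G : ℍ → ℂ) z * B z = A z) :
    formRatio hA hB = algebraMap (WH (Gamma0 N)) (WHField (Gamma0 N)) G := by
  have hden : whDiv N (isFormLike_den hB) ≠ 0 :=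
    whDiv_ne_zero N _ (pow_ne_zero 12 hB0)
  have hden' : algebraMap (WH (Gamma0 N)) (WHField (Gamma0 N)) (whDiv N (isFormLike_den hB)) ≠ 0 :=
    fun h0 => hden ((IsFractionRing.injective (WH (Gamma0 N)) (WHField (Gamma0 N)))
      (h0.trans (map_zero _).symm))
  rw [formRatio, div_eq_iff hden', ← map_mul]
  congr 1
  apply Subtype.ext
  funext z
  have hz : Δ z ^ k ≠ 0 := pow_ne_zero k (discriminant_ne_zero z)
  change A z * B z ^ 11 / Δ z ^ k = (G : ℍ → ℂ) z * (B z ^ 12 / Δ z ^ k)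
  rw [← hG z]
  field_simp

open Fermat.Agent.S16.Bridge in
/-- `q`-expansion of a weakly holomorphic quotient of two forms. -/
theorem qexp_eq_ratio {k : ℕ} {A B : ℍ → ℂ} (hA : IsFormLike (Gamma0 N) k A)
    (hB : IsFormLike (Gamma0 N) k B) (hB0 : B ≠ 0) (G : WH (Gamma0 N))
    (hG : ∀ z, (G : ℍ → ℂ) z * B z = A z) :
    Fermat.Agent.S24.QExp.qexp N G =
      HahnSeries.ofPowerSeries ℤ ℂ (qExpansion 1 A) /
        HahnSeries.ofPowerSeries ℤ ℂ (qExpansion 1 B) := by
  rw [← qexpField_algebraMap, ← formRatio_eq_algebraMap N hA hB hB0 G hG,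
    qexpField_formRatio hA hB hB0]

end FF

end Fermat.Agent.S36.Bridge.HolIntegral
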