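/-
S36 / [BR36](a), part 2 (helper16): **the modular unit `Δ(z)/Δ(qz)` at level `M₀ q` is a unit of the
ring of weakly holomorphic modular functions** — hence it and its inverse are integral over `K[j]`
and units at every horizontal place.  No analysis at the cusps is needed: the inverse
`Δ(qz)/Δ(z)` is `F/Δ` for the weight-12 form `F = Δ(q·)`, and the unit itself is obtained from it by
the Fricke involution:  `Δ(z)/Δ(qz) = q^12 · [Δ(q·)/Δ](M₀ · w z)`, `w z = -1/(M₀ q z)`.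

* `deltaUnitInvWH M₀ q`, `deltaUnitWH M₀ q : WH (Γ₀(M₀ q))`, `deltaUnitWH_mul_inv`;
* `qexp_deltaUnitWH`, `qexp_deltaUnitInvWH`;
* `deltaUnit_isIntegral`, `deltaUnit_mem_valuationSubring` : for `x ∈ FF K (M₀ q)` with the
  `q`-expansion of the unit.
-/
import Mathlib
import Fermat.Agent.S36.Bridge.HolIntegral
import Fermat.Agent.S16.Bridge.ScaleForm
import Fermat.Agent.N4F.Tors.NormCosets

set_option autoImplicit false
set_option linter.unusedSectionVars false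

namespace Fermat.Agent.S36.Bridge.DeltaUnitWH

open UpperHalfPlane ModularForm MatrixGroups CongruenceSubgroup Function
open Fermat.Agent.M2 Fermat.Agent.S24.FieldIso Fermat.Agent.S24.QExp ModularCurve
open Fermat.Agent.S16.Bridge Fermat.Agent.S36.Bridge.HolIntegral
open scoped Manifold Topology

local notation "Δ" => ModularForm.discriminant
local notation "ofPS" => HahnSeries.ofPowerSeries ℤ ℂ

variable (M₀ q : ℕ) [NeZero M₀] [NeZero q]

/-- `z ↦ Δ(qz)/Δ(z)` in `WH (Γ₀(q))`. -/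
noncomputable def gq : WH (Gamma0 q) :=
  whDiv q (m := 1) ((isFormLike_discriminant_comp_scaleH (N := q) (d := q) dvd_rfl).congr_weight
    (by norm_num))

theorem gq_apply (z : ℍ) : (gq q : ℍ → ℂ) z = Δ (JN.scaleH q z) / Δ z := by
  rw [gq, whDiv_apply, pow_one]
  rfl

/-- `z ↦ Δ(qz)/Δ(z)` in `WH (Γ₀(M₀ q))`. -/
noncomputable def deltaUnitInvWH : WH (Gamma0 (M₀ * q)) :=
  whDiv (M₀ * q) (m := 1)
    ((isFormLike_discriminant_comp_scaleH (N := M₀ * q) (d := q) (dvd_mul_left q M₀)).congr_weight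
      (by norm_num))

theorem deltaUnitInvWH_apply (z : ℍ) :
    (deltaUnitInvWH M₀ q : ℍ → ℂ) z = Δ (JN.scaleH q z) / Δ z := by
  rw [deltaUnitInvWH, whDiv_apply, pow_one]
  rfl

/-! ### The unit itself, via the Fricke involution -/

theorem scaleH_wH (z : ℍ) : JN.scaleH (M₀ * q) (wH (M₀ * q) z) = ModularGroup.S • z := by
  apply UpperHalfPlane.ext
  rw [JN.coe_scaleH, coe_wH, UpperHalfPlane.modular_S_smul]
  have hN : ((M₀ * q : ℕ) : ℂ) ≠ 0 := Nat.cast_ne_zero.mpr (NeZero.ne _)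
  have hz : (z : ℂ) ≠ 0 := z.ne_zero
  field_simp

theorem scaleH_wH' (z : ℍ) : JN.scaleH M₀ (wH (M₀ * q) z) = wH q z := by
  apply UpperHalfPlane.ext
  rw [JN.coe_scaleH, coe_wH, coe_wH]
  have hM : (M₀ : ℂ) ≠ 0 := Nat.cast_ne_zero.mpr (NeZero.ne _)
  have hq : (q : ℂ) ≠ 0 := Nat.cast_ne_zero.mpr (NeZero.ne _)
  have hz : (z : ℂ) ≠ 0 := z.ne_zero
  push_cast
  field_simp

/-- the function `z ↦ [Δ(q·)/Δ](M₀ z)` on `Γ₀(M₀ q)` -/
theorem isWH_gq_comp : IsWH (Gamma0 (M₀ * q)) ((gq q : ℍ → ℂ) ∘ JN.scaleH M₀) := by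
  have h := Fermat.Agent.N4F.Tors.NormCosets.isWH_comp_scaleH q M₀ (gq q).2
  rwa [Nat.mul_comm q M₀] at h

theorem discriminant_S_smul (z : ℍ) : Δ (ModularGroup.S • z) = (z : ℂ) ^ (12 : ℤ) * Δ z := by
  have h := (IsFormLike.discriminant (Γ := ⊤)).slash ModularGroup.S (Subgroup.mem_top _) z
  rwa [ModularGroup.denom_S] at h

/-- **Fricke identity**: `Δ(z)/Δ(qz) = q^12 · [Δ(q·)/Δ](M₀ · w z)`. -/
theorem unit_eq (z : ℍ) :
    Δ z / Δ (JN.scaleH q z) =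
      (q : ℂ) ^ 12 * ((gq q : ℍ → ℂ) ∘ JN.scaleH M₀ ∘ wH (M₀ * q)) z := by
  have hq : (q : ℂ) ≠ 0 := Nat.cast_ne_zero.mpr (NeZero.ne _)
  have hz : (z : ℂ) ≠ 0 := z.ne_zero
  have h1 : JN.scaleH q (JN.scaleH M₀ (wH (M₀ * q) z)) = ModularGroup.S • z := by
    rw [← scaleH_wH M₀ q z]
    apply UpperHalfPlane.ext
    simp only [JN.coe_scaleH]
    push_cast
    ring
  have h2 := (IsFormLike.discriminant (Γ := ⊤)).apply_wH q z
  simp only [comp_apply]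
  rw [gq_apply, h1, scaleH_wH', discriminant_S_smul, h2]
  have hΔ1 := discriminant_ne_zero z
  have hΔ2 := discriminant_ne_zero (JN.scaleH q z)
  rw [mul_zpow]
  have e12 : ∀ w : ℂ, w ^ (12 : ℤ) = w ^ 12 := fun w => zpow_ofNat w 12
  rw [e12, e12]
  field_simp

/-- `z ↦ Δ(z)/Δ(qz)` in `WH (Γ₀(M₀ q))`. -/
noncomputable def deltaUnitWH : WH (Gamma0 (M₀ * q)) :=
  ⟨fun z => Δ z / Δ (JN.scaleH q z), by
    have h1 : IsWH (Gamma0 (M₀ * q)) (((gq q : ℍ → ℂ) ∘ JN.scaleH M₀) ∘ wH (M₀ * q)) :=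
      isWH_comp_wH (M₀ * q) (isWH_gq_comp M₀ q)
    have h2 : (fun z => Δ z / Δ (JN.scaleH q z)) =
        ((q : ℂ) ^ 12) • (((gq q : ℍ → ℂ) ∘ JN.scaleH M₀) ∘ wH (M₀ * q)) := by
      funext z
      rw [unit_eq M₀ q z]
      rfl
    rw [h2]
    exact (WH (Gamma0 (M₀ * q))).smul_mem h1 _⟩

theorem deltaUnitWH_apply (z : ℍ) :
    (deltaUnitWH M₀ q : ℍ → ℂ) z = Δ z / Δ (JN.scaleH q z) := rfl

theorem deltaUnitWH_mul_inv : deltaUnitWH M₀ q * deltaUnitInvWH M₀ q = 1 := by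
  apply Subtype.ext
  funext z
  change (deltaUnitWH M₀ q : ℍ → ℂ) z * (deltaUnitInvWH M₀ q : ℍ → ℂ) z = 1
  rw [deltaUnitWH_apply, deltaUnitInvWH_apply]
  have hΔ1 := discriminant_ne_zero z
  have hΔ2 := discriminant_ne_zero (JN.scaleH q z)
  field_simp

/-! ### `q`-expansions -/

theorem isFormLike_delta : IsFormLike (Gamma0 (M₀ * q)) ((12 : ℕ) : ℤ) (Δ : ℍ → ℂ) :=
  (IsFormLike.discriminant (Γ := Gamma0 (M₀ * q))).congr_weight (by norm_num)

theorem isFormLike_delta_q :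
    IsFormLike (Gamma0 (M₀ * q)) ((12 : ℕ) : ℤ) ((Δ : ℍ → ℂ) ∘ JN.scaleH q) :=
  (isFormLike_discriminant_comp_scaleH (N := M₀ * q) (d := q) (dvd_mul_left q M₀)).congr_weight
    (by norm_num)

theorem delta_ne_zero : (Δ : ℍ → ℂ) ≠ 0 := fun h =>
  discriminant_ne_zero UpperHalfPlane.I (congrFun h _)

theorem delta_q_ne_zero : ((Δ : ℍ → ℂ) ∘ JN.scaleH q) ≠ 0 := fun h =>
  discriminant_ne_zero (JN.scaleH q UpperHalfPlane.I) (congrFun h _)

theorem qExpansion_delta_q :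
    qExpansion 1 ((Δ : ℍ → ℂ) ∘ JN.scaleH q) =
      PowerSeries.expand q (NeZero.ne q) (qExpansion 1 (Δ : ℍ → ℂ)) :=
  (IsFormLike.discriminant (Γ := ⊤)).qExpansion_comp_scaleH q

/-- `q`-expansion of `Δ(z)/Δ(qz)`. -/
theorem qexp_deltaUnitWH :
    qexp (M₀ * q) (deltaUnitWH M₀ q) =
      ofPS (qExpansion 1 (Δ : ℍ → ℂ)) /
        ofPS (PowerSeries.expand q (NeZero.ne q) (qExpansion 1 (Δ : ℍ → ℂ))) := by
  rw [← qExpansion_delta_q]
  refine qexp_eq_ratio (M₀ * q) (isFormLike_delta M₀ q) (isFormLike_delta_q M₀ q)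
    (delta_q_ne_zero q) (deltaUnitWH M₀ q) fun z => ?_
  rw [deltaUnitWH_apply, comp_apply, div_mul_cancel₀ _ (discriminant_ne_zero _)]

/-- `q`-expansion of `Δ(qz)/Δ(z)`. -/
theorem qexp_deltaUnitInvWH :
    qexp (M₀ * q) (deltaUnitInvWH M₀ q) =
      ofPS (PowerSeries.expand q (NeZero.ne q) (qExpansion 1 (Δ : ℍ → ℂ))) /
        ofPS (qExpansion 1 (Δ : ℍ → ℂ)) := by
  rw [← qExpansion_delta_q]
  refine qexp_eq_ratio (M₀ * q) (isFormLike_delta_q M₀ q) (isFormLike_delta M₀ q)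
    delta_ne_zero (deltaUnitInvWH M₀ q) fun z => ?_
  rw [deltaUnitInvWH_apply, comp_apply, div_mul_cancel₀ _ (discriminant_ne_zero _)]

/-! ### Consequences in `FF K (M₀ q)` -/

section FF

open Fermat.Agent.N4.Setting Fermat.Agent.S36.V.FrickeK

variable (K : Type) [Field K] [CharZero K] (ι : K →+* ℂ)

variable (x : FF K (M₀ * q))
  (hx : coeffMap ι (x : LaurentSeries K) =
    ofPS (qExpansion 1 (Δ : ℍ → ℂ)) /
      ofPS (PowerSeries.expand q (NeZero.ne q) (qExpansion 1 (Δ : ℍ → ℂ))))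

include hx

theorem toFCK_unit :
    toFCK K ι (M₀ * q) x = fieldEquiv (M₀ * q)
      (algebraMap (WH (Gamma0 (M₀ * q))) (WHField (Gamma0 (M₀ * q))) (deltaUnitWH M₀ q)) :=
  toFCK_eq_of_coeffMap_eq K ι (M₀ * q) x _ (hx.trans (qexp_deltaUnitWH M₀ q).symm)

theorem toFCK_unit_inv :
    toFCK K ι (M₀ * q) x⁻¹ = fieldEquiv (M₀ * q)
      (algebraMap (WH (Gamma0 (M₀ * q))) (WHField (Gamma0 (M₀ * q))) (deltaUnitInvWH M₀ q)) := by
  rw [map_inv₀, toFCK_unit M₀ q K ι x hx, ← map_inv₀]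
  congr 1
  exact inv_eq_of_mul_eq_one_right (by rw [← map_mul, deltaUnitWH_mul_inv, map_one])

theorem unit_ne_zero : x ≠ 0 := by
  intro h0
  have h1 := toFCK_unit M₀ q K ι x hx
  rw [h0, map_zero] at h1
  have h2 : fieldEquiv (M₀ * q)
      (algebraMap (WH (Gamma0 (M₀ * q))) (WHField (Gamma0 (M₀ * q)))
        (deltaUnitWH M₀ q * deltaUnitInvWH M₀ q)) = 0 := by
    rw [map_mul, map_mul, ← h1, zero_mul]
  rw [deltaUnitWH_mul_inv, map_one, map_one] at h2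
  exact one_ne_zero h2

/-- **`Δ(z)/Δ(qz)` is integral over `K[j]`.** -/
theorem deltaUnit_isIntegral : IsIntegral (Algebra.adjoin K {jF K (M₀ * q)}) x :=
  isIntegral_of_toFCK_eq K ι (M₀ * q) x _ (toFCK_unit M₀ q K ι x hx)

/-- **`Δ(qz)/Δ(z)` is integral over `K[j]`.** -/
theorem deltaUnit_inv_isIntegral : IsIntegral (Algebra.adjoin K {jF K (M₀ * q)}) x⁻¹ :=
  isIntegral_of_toFCK_eq K ι (M₀ * q) x⁻¹ _ (toFCK_unit_inv M₀ q K ι x hx)

/-- **`Δ(z)/Δ(qz)` is a unit at every horizontal place** (valuation subring containing `K` and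
`j`). -/
theorem deltaUnit_mem_valuationSubring (v : ValuationSubring (FF K (M₀ * q)))
    (hK : ∀ c : K, algebraMap K (FF K (M₀ * q)) c ∈ v) (hj : jF K (M₀ * q) ∈ v) :
    x ∈ v ∧ x⁻¹ ∈ v :=
  ⟨mem_valuationSubring_of_toFCK_eq K ι (M₀ * q) x _ (toFCK_unit M₀ q K ι x hx) v hK hj,
    mem_valuationSubring_of_toFCK_eq K ι (M₀ * q) x⁻¹ _ (toFCK_unit_inv M₀ q K ι x hx) v hK hj⟩

theorem deltaUnit_notMem_nonunits (v : ValuationSubring (FF K (M₀ * q)))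
    (hK : ∀ c : K, algebraMap K (FF K (M₀ * q)) c ∈ v) (hj : jF K (M₀ * q) ∈ v) :
    x ∉ v.nonunits := by
  intro hmem
  have h2 := (deltaUnit_mem_valuationSubring M₀ q K ι x hx v hK hj).2
  rw [ValuationSubring.mem_nonunits_iff] at hmem
  have h3 := (v.valuation_le_one_iff x⁻¹).mpr h2
  rw [map_inv₀] at h3
  have hx0 : v.valuation x ≠ 0 := by
    rw [Ne, map_eq_zero]
    exact unit_ne_zero M₀ q K ι x hx
  have := (inv_le_one₀ (zero_lt_iff.mpr hx0)).mp h3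
  exact absurd hmem (not_lt.mpr this)

end FF

end Fermat.Agent.S36.Bridge.DeltaUnitWH
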